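import Fermat.Agent.TW.Easy.Toric.Stmt
import Fermat.Agent.S44.WJ.Basic

/-!
# M59 (helper20): EVEN-LEVEL twin of the statement (Z7) [TORIC]

As `twft_Toric_stmt` (TW/Easy/Toric/Stmt.lean) with `2 ∣ M` and `m` prime to `2 q` (in use: `m = 3 ^ n`).
Prefix `m59to_`.
-/

set_option autoImplicit false
set_option linter.unusedSectionVars false

noncomputable section

namespace Fermat.Agent.M59

open Fermat.Agent.TW

open ModularCurve AlgebraicCurve IsLocalRing Fermat.Agent.JT3 Fermat.Agent.S35 Fermat.Agent.SS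
  Fermat.Agent.S24 Fermat.Agent.SS2 Fermat.Agent.S44

local notation "Qb" => AlgebraicClosure ℚ
local notation "GQ" => (AlgebraicClosure ℚ ≃ₐ[ℚ] AlgebraicClosure ℚ)

/-- **(Z7) [TORIC].** -/
def m59to_Toric_stmt : Prop :=
  ∀ (A : ValuationSubring Qb) {q : ℕ} [Fact q.Prime] (_ : A.LiesOverPrime q)
    (φ : GQ) (_ : A.IsFrobeniusAt φ q)
    (M : ℕ) [NeZero M] [NeZero q] [NeZero (M * q)] (hqM : ¬ q ∣ M) (_ : q ≠ 2) (_ : 2 ∣ M)
    (m : ℕ) (_ : m ≠ 0) (_ : Nat.Coprime m 2) (_ : ¬ q ∣ m),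
    twft_ToricAt A φ M hqM m

end Fermat.Agent.M59
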