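/-
M59 (helper20): EVEN-LEVEL twin of (Z7) [TORIC] (TW/Easy/Toric/Main.lean): `m59to_toric : m59to_Toric_stmt`,
`2 ∣ M`, `m` prime to `2 q` (in use: `m = 3 ^ n`).  Prefix `m59to_`.
-/
import Mathlib
import Fermat.Agent.TW.Easy.Toric.Main
import Fermat.Agent.M59.DTwin.Toric.NormalForm
import Fermat.Agent.M59.DTwin.Toric.Stmt
import Fermat.Agent.S35.ToricInst.LegLoc

set_option autoImplicit false
set_option linter.unusedSectionVars false
set_option linter.unusedVariables false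
set_option linter.style.haveILetI false
set_option synthInstance.maxHeartbeats 400000
set_option maxHeartbeats 1000000

noncomputable section

namespace Fermat.Agent.M59

open Fermat.Agent.TW

open Polynomial ModularCurve AlgebraicCurve IntermediateField IsLocalRing
open Fermat.Agent.JT3 Fermat.Agent.SS Fermat.Agent.S35 Fermat.Agent.S24 Fermat.Agent.S44
  Fermat.Agent.SS2

local notation "Qb" => AlgebraicClosure ℚ
local notation "GQ" => (AlgebraicClosure ℚ ≃ₐ[ℚ] AlgebraicClosure ℚ)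

/-- **(Z7) [TORIC]**: on `I_A`-fixed `z ∈ J₀(M q)[m]` with `ν = 0 = δ` at `z` and at `W_q z`,
`φ² = q²`. -/
theorem m59to_toric : m59to_Toric_stmt := by
  intro A q _ hA φ hφ M _ _ _ hqM hq2n hM2 m hm0 hm2 hqm z hz hfix hν hνW hδ hδW
  have hqq : q.Prime := Fact.out
  have hq2 : ¬ 2 ∣ q := fun h =>
    hq2n ((Nat.prime_dvd_prime_iff_eq Nat.prime_two hqq).1 h).symm
  obtain ⟨f, hrep, L1, hlev, -, ⟨ζ, hζ⟩, g1, c₀, r₀, hg1, hc₀, hr₀, hfeq, hordg1, hnf⟩ :=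
    m59to_normal_form A hA M hqM hq2 hm0 hM2 hm2 hqm ∅ (by simp) hz hfix hν hνW hδ hδW
  haveI : NumberField ↥L1 := { to_charZero := inferInstance, to_finiteDimensional := hlev.fd }
  haveI hdvr : IsDiscreteValuationRing ↥(A.comap (algebraMap ↥L1 Qb)) := hlev.dvr
  have hmem := lg_natCast_mem_maximalIdeal A hA ↥L1
  haveI : CharP (ResidueField ↥(A.comap (algebraMap ↥L1 Qb))) q := ss_nfl_charP_residue hmem
  obtain ⟨k, R, g', hk, hR, hg', hι, hordg', hcr⟩ := hnf hlev.irr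
  -- the restriction of `φ`
  set σ1 : ↥L1 ≃ₐ[ℚ] ↥L1 := hlev.res φ hφ.mem_decompositionSubgroup with hσ1
  have hσ1c : ∀ x : ↥L1, algebraMap ↥L1 Qb (σ1 x) = φ (algebraMap ↥L1 Qb x) := fun x =>
    hlev.res_coe φ hφ.mem_decompositionSubgroup x
  have hmu : IsUnit ((m : ℕ) : ↥(A.comap (algebraMap ↥L1 Qb))) :=
    lg_isUnit_natCast hmem ((Nat.Prime.coprime_iff_not_dvd hqq).2 hqm).symm
  have hF := s35ti_frobAt_of_frobenius A φ hφ L1 σ1.toRingEquiv (fun x => hσ1c x)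
  -- [TORIC] over `(L1, φ|L1)`
  have hTor : s35_ToricAt (A.comap (algebraMap ↥L1 Qb)) hlev.irr M q hq2 hqM σ1.toRingEquiv m :=
    s35ti_leg_toricAt_of_loc ↥L1 (A.comap (algebraMap ↥L1 Qb)) hlev.irr M q hq2 hqM ζ hζ
      σ1.toRingEquiv hF m hmu
      (s35ti_leg_locHyp M q hq2 hqM ↥L1 (A.comap (algebraMap ↥L1 Qb)) hlev.irr ζ hζ
        σ1.toRingEquiv hF m hmu)
  obtain ⟨c, r, hr, hid⟩ := hTor g' hg' hordg' hcr
  exact twfc_class_of_ff_sq ↥L1 (M * q) φ σ1 hσ1c hm0 (q ^ 2) hrep g1 hg1 hordg1 hc₀ hr₀ hfeq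
    hk hR hι hid

end Fermat.Agent.M59
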